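import Fermat.Agent.Hecke.NormFormula
import Fermat.Agent.FunctionField.Curve
import Fermat.Prelude.Def_ModularCurve_HeckeOperatorTotal
import Mathlib.RingTheory.Polynomial.GaussLemma

/-!
# The modular function fields are function fields, and the inputs of the Hecke correspondence

Given modular polynomials (`ModularPolynomialData`), morphisms between the modular function fields
are finite and integral and satisfy the fundamental identity and the norm formula.
-/

set_option autoImplicit false

noncomputable section

open AlgebraicCurve IntermediateField ModularCurve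

namespace Fermat.Agent.Hecke

/-! ### Morphisms of function fields are finite -/

section Morphism

variable {K F F' : Type*} [Field K] [Field F] [Field F'] [Algebra K F] [Algebra K F']
  [FunctionField.IsFunctionField K F] [FunctionField.IsFunctionField K F']

/-- A morphism of function fields in one variable is finite. -/
theorem finiteAlong_of_isFunctionField (φ : F →ₐ[K] F') : FiniteAlong K φ := by
  let := algebraAlong φ
  show Module.Finite F F'
  obtain ⟨t, ht⟩ := FunctionField.IsFunctionField.exists_transcendental (K := K) (F := F)
  have ht' : Transcendental K (φ t) := fun h =>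
    ht ((isAlgebraic_algHom_iff φ φ.toRingHom.injective).mp h)
  have := FunctionField.IsFunctionField.finiteDimensional_adjoin (φ t) ht'
  obtain ⟨s, hs⟩ := Module.Finite.fg_top (R := K⟮φ t⟯) (M := F')
  refine ⟨⟨s, top_unique fun y _ => ?_⟩⟩
  have hy : y ∈ Submodule.span K⟮φ t⟯ (s : Set F') := hs ▸ Submodule.mem_top
  induction hy using Submodule.span_induction with
  | mem z hz => exact Submodule.subset_span hz
  | zero => exact zero_mem _
  | add z w _ _ hz hw => exact add_mem (hz trivial) (hw trivial)
  | smul c z _ hz =>
    have hle : K⟮φ t⟯ ≤ φ.fieldRange := by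
      rw [adjoin_simple_le_iff]
      exact ⟨t, rfl⟩
    obtain ⟨b, hb⟩ := AlgHom.mem_fieldRange.mp (hle c.2)
    have hcz : c • z = b • z := by
      show (c : F') * z = φ b * z
      rw [hb]
    rw [hcz]
    exact Submodule.smul_mem _ b (hz trivial)

/-- A morphism of function fields in one variable is integral. -/
theorem isIntegral_of_isFunctionField (φ : F →ₐ[K] F') : φ.toRingHom.IsIntegral := by
  let := algebraAlong φ
  have : Module.Finite F F' := finiteAlong_of_isFunctionField φ
  exact Algebra.IsIntegral.isIntegral

variable [IsAlgClosed K] [CharZero K] [HasPrincipalDivisors K F']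

/-- The fundamental identity holds along every integral morphism of function fields in one
variable. -/
theorem fundamentalIdentityAlong (φ : F →ₐ[K] F') (hφ : φ.toRingHom.IsIntegral) :
    FundamentalIdentityAlong K φ hφ := by
  let := algebraAlong φ
  have := isScalarTower_along φ
  have : Module.Finite F F' := finiteAlong_of_isFunctionField φ
  exact fundamentalIdentity

/-- The norm formula holds along every finite morphism of function fields in one variable. -/
theorem normFormulaAlong (φ : F →ₐ[K] F') (hfin : FiniteAlong K φ) :
    NormFormulaAlong K φ hfin := by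
  let := algebraAlong φ
  have := isScalarTower_along φ
  have : Module.Finite F F' := hfin
  exact pushforwardNormFormula

end Morphism

/-! ### Fields generated by finitely many algebraic elements over a rational function field -/

section Adjoin

variable {K M : Type*} [Field K] [Field M] [Algebra K M]

/-- `K(S)` is a function field in one variable when it contains a transcendental `x` over which
the finite set `S` is algebraic. -/
theorem isFunctionField_adjoin {F : IntermediateField K M} {x : M} (hxF : x ∈ F)
    (hx : Transcendental K x) {S : Set M} (hSfin : S.Finite) (hF : F = adjoin K S)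
    (hint : ∀ s ∈ S, IsIntegral K⟮x⟯ s) : FunctionField.IsFunctionField K F := by
  subst hF
  let x' : adjoin K S := ⟨x, hxF⟩
  have hx' : Transcendental K x' := fun h => hx (h.algHom (adjoin K S).val)
  let T : Set (adjoin K S) := Subtype.val ⁻¹' S
  have : Finite T := (hSfin.preimage Subtype.val_injective.injOn).to_subtype
  have hintT : ∀ t ∈ T, IsIntegral K⟮x'⟯ t := by
    intro t ht
    let e : K⟮x'⟯ ≃ₐ[K] K⟮x⟯ :=
      (K⟮x'⟯.equivMap (adjoin K S).val).trans
        (IntermediateField.equivOfEq (by rw [adjoin_map, Set.image_singleton]; rfl))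
    obtain ⟨p, hp, hpt⟩ := hint _ ht
    refine ⟨p.map (e.symm : K⟮x⟯ →+* K⟮x'⟯), hp.map _, ?_⟩
    refine (adjoin K S).val.toRingHom.injective ?_
    rw [Polynomial.eval₂_map, Polynomial.hom_eval₂, map_zero]
    have hcomp : ((adjoin K S).val.toRingHom.comp (algebraMap K⟮x'⟯ (adjoin K S))).comp
        (e.symm : K⟮x⟯ →+* K⟮x'⟯) = algebraMap K⟮x⟯ M :=
      RingHom.ext fun c => congrArg Subtype.val (e.apply_symm_apply c)
    rw [← RingHom.comp_assoc, hcomp]
    exact hpt
  have : FiniteDimensional K⟮x'⟯ (adjoin K⟮x'⟯ T) := finiteDimensional_adjoin hintT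
  have htop : adjoin K⟮x'⟯ T = ⊤ := by
    refine top_unique fun y _ => ?_
    have h2 : adjoin K T ≤ (adjoin K⟮x'⟯ T).restrictScalars K :=
      adjoin_le_iff.mpr (subset_adjoin _ T)
    have h3 : adjoin K T = ⊤ := by
      apply map_injective (adjoin K S).val
      rw [adjoin_map, ← AlgHom.fieldRange_eq_map, fieldRange_val]
      congr 1
      ext z
      exact ⟨fun ⟨a, ha, h⟩ => h ▸ ha, fun hz => ⟨⟨z, subset_adjoin K S hz⟩, hz, rfl⟩⟩
    exact h2 (h3 ▸ IntermediateField.mem_top)
  have : FiniteDimensional K⟮x'⟯ (adjoin K S) :=
    Module.Finite.equiv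
      ((IntermediateField.equivOfEq htop).trans IntermediateField.topEquiv).toLinearEquiv
  exact FunctionField.isFunctionField_of_finiteDimensional hx'

end Adjoin

/-! ### The modular function fields -/

section Modular

variable (L : Type*) [Field L] [Algebra ℚ L]

/-- The `q`-expansion of `j` over `L`. -/
def jC : LaurentSeries L := coeffEmb L jq

theorem coeff_jC_pow_self (n : ℕ) : ((jC L) ^ n).coeff (-(n : ℤ)) = 1 := by
  rw [jC, ← map_pow, coeffEmb_coeff, coeff_jq_pow_self, map_one]

theorem coeff_jC_pow_of_lt {n : ℕ} {m : ℤ} (hm : m < -(n : ℤ)) : ((jC L) ^ n).coeff m = 0 := by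
  rw [jC, ← map_pow, coeffEmb_coeff, coeff_jq_pow_of_lt hm, map_zero]

/-- The `j`-invariant series is transcendental over the constants. -/
theorem transcendental_jC : Transcendental L (jC L) := by
  rw [transcendental_iff]
  intro p hp
  by_contra h0
  have h := congrArg (fun z : LaurentSeries L => z.coeff (-(p.natDegree : ℤ))) hp
  rw [Polynomial.aeval_eq_sum_range, Finset.sum_range_succ] at h
  simp only [HahnSeries.coeff_zero, HahnSeries.coeff_add, HahnSeries.coeff_sum,
    Algebra.smul_def, algebraMap_laurentSeries_eq_single, HahnSeries.coeff_single_mul,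
    sub_zero] at h
  rw [coeff_jC_pow_self, mul_one, Finset.sum_eq_zero, zero_add] at h
  · exact h0 (Polynomial.leadingCoeff_eq_zero.mp h)
  · intro i hi
    rw [coeff_jC_pow_of_lt L (by have := Finset.mem_range.mp hi; omega), mul_zero]

variable (N : ℕ) [NeZero N]

theorem jC_mem : jC L ∈ laurentBaseChange L (modularFunctionFieldFull N) :=
  coeffEmb_mem_laurentBaseChange L (modularFunctionField_le_full N (jq_mem N))

/-- The element `j` of the modular function field. -/
def jElt : laurentBaseChange L (modularFunctionFieldFull N) := ⟨jC L, jC_mem L N⟩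

/-- The series `j` is transcendental over the constants. -/
theorem transcendental_jElt : Transcendental L (jElt L N) := fun h =>
  transcendental_jC L (h.algHom (laurentBaseChange L (modularFunctionFieldFull N)).val)

omit [NeZero N] in
/-- The modular function field over `L` is generated by the series `j(q ^ d)`, `d ∣ N`. -/
theorem laurentBaseChange_full :
    laurentBaseChange L (modularFunctionFieldFull N) =
      adjoin L (coeffEmb L '' divisorExpansions N) := by
  refine le_antisymm ?_ ?_
  · rw [laurentBaseChange, adjoin_le_iff]
    rintro _ ⟨y, hy, rfl⟩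
    induction hy using adjoin_induction ℚ with
    | mem z hz => exact subset_adjoin L _ ⟨z, hz, rfl⟩
    | algebraMap r =>
      rw [ModularCurve.algebraMap_apply_eq_single, coeffEmb, coeffMap_single,
        ← algebraMap_laurentSeries_eq_single]
      exact IntermediateField.algebraMap_mem _ _
    | add a b _ _ ha hb => rw [map_add]; exact add_mem ha hb
    | inv a _ ha => rw [map_inv₀]; exact inv_mem ha
    | mul a b _ _ ha hb => rw [map_mul]; exact mul_mem ha hb
  · exact adjoin.mono L _ _ (Set.image_mono (subset_adjoin ℚ _))

/-- There are finitely many divisor expansions of level `N`. -/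
theorem finite_divisorExpansions : (divisorExpansions N).Finite := by
  refine Set.Finite.subset ((N.divisors : Set ℕ).toFinite.image
    (fun d => if h : d = 0 then 0 else (haveI : NeZero d := ⟨h⟩; qExpand ℚ d jq))) ?_
  rintro x ⟨d, hd0, hd, rfl⟩
  exact ⟨d, Nat.mem_divisors.mpr ⟨hd, NeZero.ne N⟩, by simp [hd0.out]⟩

/-- The modular polynomial makes `j(q^d)` algebraic over `L(j)`. -/
theorem isIntegral_coeffEmb_qExpand {d : ℕ} [NeZero d] (D : ModularPolynomialData d) :
    IsIntegral L⟮jC L⟯ (coeffEmb L (qExpand ℚ d jq)) := by
  let g : Polynomial ℤ →+* L⟮jC L⟯ :=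
    Polynomial.eval₂RingHom (Int.castRingHom _) ⟨jC L, mem_adjoin_simple_self L _⟩
  have hg : (algebraMap L⟮jC L⟯ (LaurentSeries L)).comp g = (coeffEmb L).comp evalAtJ := by
    refine Polynomial.ringHom_ext' (Subsingleton.elim _ _) ?_
    show algebraMap L⟮jC L⟯ (LaurentSeries L) (g Polynomial.X) = coeffEmb L (evalAtJ Polynomial.X)
    rw [evalAtJ_X, Polynomial.coe_eval₂RingHom, Polynomial.eval₂_X]
    rfl
  refine ⟨D.Φ.map g, D.monic.map g, ?_⟩
  rw [Polynomial.eval₂_map, hg, ← Polynomial.hom_eval₂]
  rw [show D.Φ.eval₂ evalAtJ (qExpand ℚ d jq) = 0 from D.eval_eq_zero, map_zero]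

/-- The modular function field of level `N` is a function field, given modular polynomials. -/
theorem isFunctionField_of_data (hmod : ∀ (d : ℕ) [NeZero d], Nonempty (ModularPolynomialData d)) :
    FunctionField.IsFunctionField L (laurentBaseChange L (modularFunctionFieldFull N)) := by
  refine isFunctionField_adjoin (jC_mem L N) (transcendental_jC L)
    ((finite_divisorExpansions N).image _) (laurentBaseChange_full L N) ?_
  rintro _ ⟨x, ⟨d, hd0, -, rfl⟩, rfl⟩
  exact isIntegral_coeffEmb_qExpand L (hmod d).some

variable (ℓ : ℕ) [NeZero ℓ] [IsAlgClosed L] [CharZero L]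

/-- The inputs of the Hecke correspondence, given modular polynomials. -/
theorem heckeInputsAlong_of_data
    (hmod : ∀ (d : ℕ) [NeZero d], Nonempty (ModularPolynomialData d)) :
    HeckeInputsAlong L N ℓ := by
  have := isFunctionField_of_data L N hmod
  have := isFunctionField_of_data L (N * ℓ) hmod
  exact heckeInputsAlong_intro (isIntegral_of_isFunctionField _) (isIntegral_of_isFunctionField _)
    (fundamentalIdentityAlong _ _) (finiteAlong_of_isFunctionField _) (normFormulaAlong _ _)

end Modular

/-! ### The correspondence on principal divisors -/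

section Principal

variable {L : Type*} [Field L] [Algebra ℚ L] {N ℓ : ℕ} [NeZero N] [NeZero ℓ]
variable [HasPrincipalDivisors L (laurentBaseChange L (modularFunctionFieldFull (N * ℓ)))]

variable (L N ℓ) in
/-- `N_α (β f)`: the Hecke transform of a function. -/
def heckeNorm (f : laurentBaseChange L (modularFunctionFieldFull N)) :
    laurentBaseChange L (modularFunctionFieldFull N) :=
  letI := algebraAlong (heckeAlphaBar L N ℓ)
  Algebra.norm (laurentBaseChange L (modularFunctionFieldFull N)) (heckeBetaBar L N ℓ f)

/-- The Hecke correspondence maps the divisor of `f` to the divisor of `N_α (β f)`. -/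
theorem heckeDivBar_principal (hα : HeckeAlphaBarIntegral L N ℓ) (hβ : HeckeBetaBarIntegral L N ℓ)
    (hfin : FiniteAlong L (heckeAlphaBar L N ℓ))
    (hN : NormFormulaAlong L (heckeAlphaBar L N ℓ) hfin)
    {f : laurentBaseChange L (modularFunctionFieldFull N)} (hf : f ≠ 0)
    {D : Divisor L (laurentBaseChange L (modularFunctionFieldFull N))}
    (hD : ∀ v, D v = v.ord f) (v : Place L (laurentBaseChange L (modularFunctionFieldFull N))) :
    heckeDivBar hα hβ D v = v.ord (heckeNorm L N ℓ f) := by
  have hβ0 : heckeBetaBar L N ℓ f ≠ 0 :=
    (map_ne_zero_iff _ (heckeBetaBar L N ℓ).toRingHom.injective).mpr hf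
  have hD' : ∀ w, Divisor.pullbackAlong (heckeBetaBar L N ℓ) hβ D w
      = w.ord (heckeBetaBar L N ℓ f) := fun w => by
    let := algebraAlong (heckeBetaBar L N ℓ)
    have := isScalarTower_along (heckeBetaBar L N ℓ)
    have := isIntegral_along (heckeBetaBar L N ℓ) hβ
    exact Divisor.pullback_apply_eq_ord hD w
  let := algebraAlong (heckeAlphaBar L N ℓ)
  exact hN _ hβ0 _ hD' v

end Principal

end Fermat.Agent.Hecke
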