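import Fermat.Agent.Hecke.Finite
import Fermat.Agent.ModularFunctionField.ModularPolynomial
import Mathlib.FieldTheory.IsAlgClosed.AlgebraicClosure

/-!
# The Hecke correspondences on `X₀(N)` are defined

Modular polynomials exist, so the modular function fields are function fields in one variable and
every hypothesis of the Hecke correspondence holds: the total Hecke operator is the correspondence.
-/

set_option autoImplicit false

noncomputable section

open AlgebraicCurve ModularCurve

namespace Fermat.Agent.Hecke

variable (L : Type*) [Field L] [Algebra ℚ L] (N ℓ : ℕ) [NeZero N] [NeZero ℓ]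

theorem nonempty_modularPolynomialData :
    ∀ (d : ℕ) [NeZero d], Nonempty (ModularPolynomialData d) := fun d _ =>
  ⟨ModularFunctionField.modularPolynomialData d⟩

/-- The modular function field of level `N` over `L` is a function field in one variable. -/
theorem isFunctionField_modular :
    FunctionField.IsFunctionField L (laurentBaseChange L (modularFunctionFieldFull N)) :=
  isFunctionField_of_data L N nonempty_modularPolynomialData

instance instIsFunctionFieldModular :
    FunctionField.IsFunctionField L (laurentBaseChange L (modularFunctionFieldFull N)) :=
  isFunctionField_modular L N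

variable [IsAlgClosed L] [CharZero L]

/-- The Hecke correspondence of level `N` and index `ℓ` has all its inputs. -/
theorem heckeInputsAlong : HeckeInputsAlong L N ℓ :=
  heckeInputsAlong_of_data L N ℓ nonempty_modularPolynomialData

/-- The total Hecke operator is the correspondence. -/
theorem heckeOperatorAlong_eq_pic0 :
    ∃ (hα : HeckeAlphaBarIntegral L N ℓ) (hβ : HeckeBetaBarIntegral L N ℓ)
      (_ : HasPrincipalDivisors L (laurentBaseChange L (modularFunctionFieldFull (N * ℓ))))
      (hfin : FiniteAlong L (heckeAlphaBar L N ℓ))
      (hFI : FundamentalIdentityAlong L (heckeBetaBar L N ℓ) hβ)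
      (hN : NormFormulaAlong L (heckeAlphaBar L N ℓ) hfin),
      heckeOperatorAlong L N ℓ = heckePic0Bar hα hβ hFI hfin hN := by
  obtain ⟨hα, hβ, hP, hfin, hFI, hN⟩ := heckeInputsAlong L N ℓ
  exact ⟨hα, hβ, hP, hfin, hFI, hN, heckeOperatorAlong_eq hα hβ hFI hfin hN⟩

end Fermat.Agent.Hecke
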