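import Fermat.Agent.Hecke.Inputs
import Mathlib.FieldTheory.PrimitiveElement
import Mathlib.RingTheory.RootsOfUnity.AlgebraicallyClosed

/-!
# The norm identity for the Hecke correspondence on `q`-expansions

For a prime `ℓ ∤ N`, in the parameter `t = q^(1/ℓ)`,
`(N_α (β f))(t^ℓ) = f(t^(ℓ²)) · ∏_{i<ℓ} f(ζⁱ t)`.
-/

set_option autoImplicit false

noncomputable section

open AlgebraicCurve ModularCurve IntermediateField Polynomial
open Fermat.Agent.ModularFunctionField

namespace Fermat.Agent.Hecke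

/-! ### Evaluation of integral polynomials in `j` -/

section EvJ

variable {R : Type*} [CommRing R] {S : Type*} [CommRing S]

/-- Evaluation `ℤ[X] → R` at `x`. -/
def evJ (x : R) : ℤ[X] →+* R := Polynomial.eval₂RingHom (Int.castRingHom R) x

theorem evJ_X (x : R) : evJ x Polynomial.X = x := Polynomial.eval₂_X _ _

theorem comp_evJ (f : R →+* S) (x : R) : f.comp (evJ x) = evJ (f x) := by
  refine Polynomial.ringHom_ext' (Subsingleton.elim _ _) ?_
  rw [RingHom.comp_apply, evJ_X, evJ_X]

theorem evalPhi_eq (m : ℕ) [NeZero m] : evalPhi m R = evJ (jT R m) := by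
  refine Polynomial.ringHom_ext' (Subsingleton.elim _ _) ?_
  rw [evJ_X, evalPhi, RingHom.comp_apply, Polynomial.coe_mapRingHom, Polynomial.map_X, evalJT_X]

/-- A relation transported along a ring homomorphism. -/
theorem map_rel (f : R →+* S) (P : Polynomial ℤ[X]) {x y : R}
    (h : P.eval₂ (evJ x) y = 0) : P.eval₂ (evJ (f x)) (f y) = 0 := by
  rw [← comp_evJ f x, ← Polynomial.hom_eval₂, h, map_zero]

theorem rel_of_map (f : R →+* S) (hf : Function.Injective f) (P : Polynomial ℤ[X]) {x y : R}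
    (h : P.eval₂ (evJ (f x)) (f y) = 0) : P.eval₂ (evJ x) y = 0 := by
  rw [← comp_evJ f x, ← Polynomial.hom_eval₂] at h
  exact hf (h.trans (map_zero f).symm)

end EvJ

section Series

variable {L : Type*} [Field L]

/-- The two forms of the `j`-series over `L` agree. -/
theorem jC_eq_jqModC [Algebra ℚ L] : jC L = jqModC L := map_jqModC (algebraMap ℚ L)

/-- The substitutions `q ↦ q ^ a` and `q ↦ q ^ b` commute. -/
theorem qExpand_comm (a b : ℕ) [NeZero a] [NeZero b] (x : LaurentSeries L) :
    qExpand L a (qExpand L b x) = qExpand L b (qExpand L a x) := by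
  rw [qExpand_qExpand, qExpand_qExpand]
  exact qExpand_congr (mul_comm a b) x

theorem coeff_subst_j (u : Lˣ) (k : ℕ) [NeZero k] :
    (subst u k (jqModC L)).coeff (-(k : ℤ)) = ((u⁻¹ : Lˣ) : L) ∧
      ∀ i : ℤ, i < -(k : ℤ) → (subst u k (jqModC L)).coeff i = 0 := by
  refine ⟨?_, fun i hi => ?_⟩
  · rw [show -(k : ℤ) = (k : ℤ) * (-1) by ring, subst_coeff_mul,
      ModularCurve.coeff_jqModC_neg_one, mul_one, zpow_neg_one]
  · by_cases h : (k : ℤ) ∣ i
    · obtain ⟨n, rfl⟩ := h
      rw [subst_coeff_mul, ← pow_one (jqModC L),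
        ModularCurve.coeff_jqModC_pow_of_lt L (b := 1), mul_zero]
      rw [Nat.cast_one]
      exact lt_of_mul_lt_mul_left (by rwa [mul_neg_one]) (Int.natCast_nonneg k)
    · exact subst_coeff_of_not_dvd _ _ _ h

/-- `j(u qᵏ)` determines `k` and `u`. -/
theorem subst_j_inj {u v : Lˣ} {k l : ℕ} [NeZero k] [NeZero l]
    (h : subst u k (jqModC L) = subst v l (jqModC L)) : k = l ∧ u = v := by
  obtain ⟨hu, hu0⟩ := coeff_subst_j u k
  obtain ⟨hv, hv0⟩ := coeff_subst_j v l
  have hkl : k = l := by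
    rcases lt_trichotomy k l with hlt | heq | hgt
    · have := hu0 (-(l : ℤ)) (by omega)
      rw [h, hv] at this
      exact absurd this (Units.ne_zero _)
    · exact heq
    · have := hv0 (-(k : ℤ)) (by omega)
      rw [← h, hu] at this
      exact absurd this (Units.ne_zero _)
  subst hkl
  rw [h, hv] at hu
  exact ⟨rfl, (inv_inj.mp (Units.ext hu)).symm⟩

/-- `Φ_m` has `(j(q), j(q^m))` as a zero. -/
theorem modularPoly_vanish [IsAlgClosed L] [CharZero L] (m : ℕ) [NeZero m] :
    (modularPoly m).eval₂ (evJ (jqModC L)) (qExpand L m (jqModC L)) = 0 := by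
  have : NeZero ((m : ℕ) : L) := ⟨Nat.cast_ne_zero.mpr (NeZero.ne m)⟩
  obtain ⟨z, hz⟩ := HasEnoughRootsOfUnity.exists_primitiveRoot L m
  have hu : IsPrimitiveRoot (hz.isUnit (NeZero.ne m)).unit m :=
    IsPrimitiveRoot.coe_units_iff.mp (by rwa [IsUnit.unit_spec])
  refine rel_of_map (qExpand L m) (qExpand_injective m) _ ?_
  rw [show qExpand L m (jqModC L) = jT L m from rfl, ← evalPhi_eq, ← Polynomial.eval_map,
    modularPoly_map_evalPhi hu, Polynomial.eval_prod]
  refine Finset.prod_eq_zero (Finset.mem_univ Tri.top) ?_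
  simp [jRoot_top, jT, qExpand_qExpand]

/-- The roots of `Φ_m` at the image of `j(q_mᵐ)`. -/
theorem exists_root {E : Type*} [CommRing E] [IsDomain E] (f : LaurentSeries L →+* E) {m : ℕ}
    [NeZero m] {u : Lˣ} (hu : IsPrimitiveRoot u m) {y : E}
    (h : (modularPoly m).eval₂ (evJ (f (jT L m))) y = 0) :
    ∃ M : Tri m, y = f (jRoot u 1 M) := by
  rw [← comp_evJ, ← evalPhi_eq, ← Polynomial.eval_map, ← Polynomial.map_map,
    modularPoly_map_evalPhi hu, Polynomial.map_prod, Polynomial.eval_prod,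
    Finset.prod_eq_zero_iff] at h
  obtain ⟨M, -, hM⟩ := h
  refine ⟨M, ?_⟩
  simpa [sub_eq_zero] using hM

end Series

/-! ### The conjugate substitutions -/

section Conj

variable {L : Type*} [Field L] {ℓ : ℕ} [NeZero ℓ] (z : Lˣ)

/-- The unit part of the `p`-th conjugate substitution. -/
def conjUnit : Option (Fin ℓ) → Lˣ
  | none => 1
  | some i => z ^ (i : ℕ)

/-- The exponent part of the `p`-th conjugate substitution. -/
def conjExp : Option (Fin ℓ) → ℕ
  | none => ℓ * ℓ
  | some _ => 1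

instance instNeZeroConjExp (p : Option (Fin ℓ)) : NeZero (conjExp p) := by
  cases p <;> simp only [conjExp] <;> infer_instance

/-- The `ℓ + 1` substitutions `q ↦ q^ℓ²`, `q ↦ ζⁱ q`. -/
def conjSubst (p : Option (Fin ℓ)) : LaurentSeries L →+* LaurentSeries L :=
  subst (conjUnit z p) (conjExp p)

variable {z}

/-- The `ℓ + 1` conjugates of `j` are distinct. -/
theorem conjSubst_j_injective (hz : IsPrimitiveRoot z ℓ) (hℓ : 1 < ℓ) :
    Function.Injective fun p : Option (Fin ℓ) => conjSubst z p (jqModC L) := by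
  intro p q h
  obtain ⟨hk, hu⟩ := subst_j_inj h
  rcases p with _ | i <;> rcases q with _ | j
  · rfl
  · simp only [conjExp] at hk
    nlinarith
  · simp only [conjExp] at hk
    nlinarith
  · exact congrArg some (Fin.ext (hz.pow_inj i.2 j.2 hu))

/-- The roots of `Φ_ℓ(j(tˡ), ·)`. -/
theorem jRoot_prime_eq (hℓ : ℓ.Prime) (hz : IsPrimitiveRoot z ℓ) (M : Tri ℓ) :
    ∃ p : Option (Fin ℓ), jRoot z 1 M = conjSubst z p (jqModC L) := by
  rcases hℓ.eq_one_or_self_of_dvd _ (Dvd.intro M.d M.a_mul_d) with ha | ha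
  · have hd : M.d = ℓ := by simpa [ha] using M.a_mul_d
    refine ⟨some ⟨M.b, M.b_lt.trans_eq hd⟩, ?_⟩
    exact subst_congr (by simp [conjUnit, ha]) (by simp [conjExp, ha]) _
  · refine ⟨none, ?_⟩
    exact subst_congr (by simp [conjUnit, ha, mul_comm M.b, pow_mul, hz.pow_eq_one])
      (by simp [conjExp, ha]) _

end Conj

/-! ### Classification of the embeddings -/

section Embeddings

variable (L : Type*) [Field L] [Algebra ℚ L] (N : ℕ) [NeZero N]

omit [NeZero N] in
/-- `j (q ^ d)` lies in the modular function field of level `N` for `d` dividing `N`. -/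
theorem qExpand_jC_mem {d : ℕ} [NeZero d] (hd : d ∣ N) :
    qExpand L d (jqModC L) ∈ laurentBaseChange L (modularFunctionFieldFull N) := by
  have h : coeffEmb L (qExpand ℚ d jq) = qExpand L d (jqModC L) := by
    rw [coeffEmb, coeffMap_qExpand', ← coeffEmb, ← jC_eq_jqModC]
    rfl
  exact h ▸ coeffEmb_mem_laurentBaseChange L (jqd_mem_full N hd)

/-- The generator `j(q^d)`. -/
def gen {d : ℕ} [NeZero d] (hd : d ∣ N) : laurentBaseChange L (modularFunctionFieldFull N) :=
  ⟨qExpand L d (jqModC L), qExpand_jC_mem L N hd⟩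

variable {L N}

/-- A ring homomorphism on a field generated by `S` is determined by its values on `S`. -/
theorem hom_ext_of_adjoin {K M E : Type*} [Field K] [Field M] [Algebra K M] [Field E]
    {F : IntermediateField K M} {S : Set M} (hF : F = adjoin K S) {f g : F →+* E}
    (hC : ∀ c : K, f (algebraMap K F c) = g (algebraMap K F c))
    (hS : ∀ (s : M) (hs : s ∈ F), s ∈ S → f ⟨s, hs⟩ = g ⟨s, hs⟩) (x : F) : f x = g x := by
  subst hF
  obtain ⟨x, hx⟩ := x
  induction hx using adjoin_induction K with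
  | mem w hw => exact hS w _ hw
  | algebraMap c => exact hC c
  | add a b ha hb iha ihb =>
    exact (map_add f ⟨a, ha⟩ ⟨b, hb⟩).trans
      ((congrArg₂ (· + ·) iha ihb).trans (map_add g ⟨a, ha⟩ ⟨b, hb⟩).symm)
  | inv a ha iha =>
    exact (map_inv₀ f ⟨a, ha⟩).trans ((congrArg (·⁻¹) iha).trans (map_inv₀ g ⟨a, ha⟩).symm)
  | mul a b ha hb iha ihb =>
    exact (map_mul f ⟨a, ha⟩ ⟨b, hb⟩).trans
      ((congrArg₂ (· * ·) iha ihb).trans (map_mul g ⟨a, ha⟩ ⟨b, hb⟩).symm)

omit [NeZero N] in
/-- A ring homomorphism on the modular function field is determined by the generators. -/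
theorem hom_ext_gen {E : Type*} [Field E]
    {f g : laurentBaseChange L (modularFunctionFieldFull N) →+* E}
    (hC : ∀ c : L, f (algebraMap L _ c) = g (algebraMap L _ c))
    (hgen : ∀ (d : ℕ) [NeZero d] (hd : d ∣ N), f (gen L N hd) = g (gen L N hd))
    (x : laurentBaseChange L (modularFunctionFieldFull N)) : f x = g x := by
  refine hom_ext_of_adjoin (laurentBaseChange_full L N) hC (fun s hs hsS => ?_) x
  obtain ⟨_, ⟨d, hd0, hd, rfl⟩, rfl⟩ := hsS
  have h : (⟨coeffEmb L (qExpand ℚ d jq), hs⟩ :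
      laurentBaseChange L (modularFunctionFieldFull N)) = gen L N hd := by
    refine Subtype.ext ?_
    show coeffEmb L (qExpand ℚ d jq) = qExpand L d (jqModC L)
    rw [coeffEmb, coeffMap_qExpand', ← coeffEmb, ← jC_eq_jqModC]
    rfl
  rw [h]
  exact hgen d hd

variable [IsAlgClosed L] [CharZero L] {ℓ : ℕ} [NeZero ℓ] {z : Lˣ}
  {E : Type*} [Field E] (ι : LaurentSeries L →+* E)
  (σ : laurentBaseChange L (modularFunctionFieldFull (N * ℓ)) →+* E)

/-- An embedding over `F_N` is one of the conjugate substitutions on `β F_N`. -/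
theorem exists_conjSubst (hℓ : ℓ.Prime) (hN : ¬ ℓ ∣ N) (hz : IsPrimitiveRoot z ℓ)
    (hσ : ∀ x, σ (heckeAlphaBar L N ℓ x) = ι (qExpand L ℓ (x : LaurentSeries L))) :
    ∃ p : Option (Fin ℓ), ∀ x : laurentBaseChange L (modularFunctionFieldFull N),
      σ (heckeBetaBar L N ℓ x) = ι (conjSubst z p (x : LaurentSeries L)) := by
  set incl : laurentBaseChange L (modularFunctionFieldFull (N * ℓ)) →+* LaurentSeries L :=
    (laurentBaseChange L (modularFunctionFieldFull (N * ℓ))).val.toRingHom with hincl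
  have hincl_inj : Function.Injective incl := incl.injective
  -- the relation `Φ_ℓ(j_d, j_{dℓ}) = 0`
  have step : ∀ (d : ℕ) [NeZero d] (hd : d ∣ N), ∃ p : Option (Fin ℓ),
      σ (heckeBetaBar L N ℓ (gen L N hd)) = ι (qExpand L d (conjSubst z p (jqModC L))) := by
    intro d hd0 hd
    have h0 : (modularPoly ℓ).eval₂ (evJ (heckeAlphaBar L N ℓ (gen L N hd)))
        (heckeBetaBar L N ℓ (gen L N hd)) = 0 := by
      refine rel_of_map incl hincl_inj _ ?_
      show (modularPoly ℓ).eval₂ (evJ (qExpand L d (jqModC L)))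
        (qExpand L ℓ (qExpand L d (jqModC L))) = 0
      rw [qExpand_comm ℓ d]
      exact map_rel (qExpand L d) _ (modularPoly_vanish ℓ)
    have h1 := map_rel σ _ h0
    rw [hσ] at h1
    have h2 : ι (qExpand L ℓ ((gen L N hd : laurentBaseChange L (modularFunctionFieldFull N)) :
        LaurentSeries L)) = ι.comp (qExpand L d) (jT L ℓ) := by
      rw [RingHom.comp_apply, jT, qExpand_comm d ℓ]
      rfl
    rw [h2] at h1
    obtain ⟨M, hM⟩ := exists_root (ι.comp (qExpand L d)) hz h1
    obtain ⟨p, hp⟩ := jRoot_prime_eq hℓ hz M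
    exact ⟨p, by rw [hM, hp]; rfl⟩
  obtain ⟨p, hp⟩ := step 1 (one_dvd N)
  rw [qExpand_one_apply] at hp
  refine ⟨p, fun x => ?_⟩
  refine hom_ext_gen (f := σ.comp (heckeBetaBar L N ℓ).toRingHom)
    (g := (ι.comp (conjSubst z p)).comp
      (laurentBaseChange L (modularFunctionFieldFull N)).val.toRingHom) (fun c => ?_) ?_ x
  · show σ (heckeBetaBar L N ℓ (algebraMap L _ c)) =
      ι (conjSubst z p (algebraMap L (LaurentSeries L) c))
    rw [AlgHom.commutes, ← (heckeAlphaBar L N ℓ).commutes c, hσ]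
    show ι (qExpand L ℓ (algebraMap L (LaurentSeries L) c)) = _
    rw [algebraMap_laurentSeries_eq_single, ← HahnSeries.C_apply, qExpand_C, conjSubst, subst_C]
  · intro d hd0 hd
    show σ (heckeBetaBar L N ℓ (gen L N hd)) = ι (conjSubst z p (qExpand L d (jqModC L)))
    obtain ⟨q, hq⟩ := step d hd
    -- the relation `Φ_d(j_ℓ, j_{dℓ}) = 0`
    have h0 : (modularPoly d).eval₂ (evJ (heckeBetaBar L N ℓ (gen L N (one_dvd N))))
        (heckeBetaBar L N ℓ (gen L N hd)) = 0 := by
      refine rel_of_map incl hincl_inj _ ?_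
      show (modularPoly d).eval₂ (evJ (qExpand L ℓ (qExpand L 1 (jqModC L))))
        (qExpand L ℓ (qExpand L d (jqModC L))) = 0
      rw [qExpand_one_apply]
      exact map_rel (qExpand L ℓ) _ (modularPoly_vanish d)
    have h1 := map_rel σ _ h0
    rw [hp, hq] at h1
    have h2 := map_rel (qExpand L d) _ (rel_of_map ι ι.injective _ h1)
    -- `qExpand d (j(u qᵏ)) = subst v k (j(q_dᵈ))`
    obtain ⟨v₀, hv₀⟩ := IsAlgClosed.exists_pow_nat_eq ((conjUnit z p : Lˣ) : L) hd0.pos
    have hv₀0 : v₀ ≠ 0 := fun h => by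
      rw [h, zero_pow hd0.out] at hv₀
      exact Units.ne_zero _ hv₀.symm
    set v : Lˣ := Units.mk0 v₀ hv₀0 with hv
    have hvd : v ^ d = conjUnit z p := Units.ext (by simp [hv, hv₀])
    have hx : qExpand L d (conjSubst z p (jqModC L)) = subst v (conjExp p) (jT L d) := by
      rw [conjSubst, jT, ← subst_one, ← subst_one, subst_subst, subst_subst]
      exact subst_congr (by simp [hvd]) (mul_comm _ _) _
    rw [hx] at h2
    have : NeZero ((d : ℕ) : L) := ⟨Nat.cast_ne_zero.mpr hd0.out⟩
    obtain ⟨w, hw⟩ := HasEnoughRootsOfUnity.exists_primitiveRoot L d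
    have hwu : IsPrimitiveRoot (hw.isUnit hd0.out).unit d :=
      IsPrimitiveRoot.coe_units_iff.mp (by rwa [IsUnit.unit_spec])
    obtain ⟨M, hM⟩ := exists_root (subst v (conjExp p)) hwu h2
    rw [conjSubst, jRoot, rootSubst, ← subst_one, ← subst_one, subst_subst, subst_subst,
      subst_subst] at hM
    obtain ⟨hk, hu⟩ := subst_j_inj hM
    simp only [one_pow, one_mul, mul_one] at hk hu
    have hMa : M.a ≤ d := Nat.le_of_dvd hd0.pos (Dvd.intro M.d M.a_mul_d)
    have hℓ1 : 1 < ℓ := hℓ.one_lt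
    have hkq : conjExp q = conjExp p ∧ M.a = d := by
      rcases p with _ | i <;> rcases q with _ | j <;> simp only [conjExp, mul_one, one_mul] at hk ⊢
      · refine ⟨trivial, Nat.mul_self_inj.mp ?_⟩
        have : ℓ * ℓ * (M.a * M.a) = ℓ * ℓ * (d * d) := by rw [← hk]; ring
        exact Nat.eq_of_mul_eq_mul_left (by positivity) this
      · exfalso
        have h3 : d * d = (M.a * ℓ) * (M.a * ℓ) := by rw [hk]; ring
        exact hN ((Dvd.intro_left M.a (Nat.mul_self_inj.mp h3).symm).trans hd)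
      · exfalso
        have h3 : (d * ℓ) * (d * ℓ) = M.a * M.a := by rw [← hk]; ring
        have := Nat.mul_self_inj.mp h3
        have : d * 2 ≤ d * ℓ := Nat.mul_le_mul_left d hℓ1
        have := hd0.pos
        omega
      · exact ⟨trivial, Nat.mul_self_inj.mp (by rw [← hk])⟩
    obtain ⟨hkq, hMd⟩ := hkq
    have hMdd : M.d = 1 := by
      have h3 := M.a_mul_d
      rw [hMd] at h3
      exact Nat.eq_of_mul_eq_mul_left hd0.pos (h3.trans (mul_one d).symm)
    have hMb : M.b = 0 := by have := M.b_lt; omega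
    have hu' : conjUnit z q = conjUnit z p ^ d := by
      rw [hu, hMb, hMd, ← hvd, ← pow_mul]
      simp
    rw [hq]
    congr 1
    rw [conjSubst, conjSubst, ← subst_one, ← subst_one, subst_subst, subst_subst]
    exact subst_congr (by simp [hu']) (by rw [hkq, mul_comm]) _

end Embeddings

/-! ### The identity -/

section Identity

variable {L : Type*} [Field L] [Algebra ℚ L] [IsAlgClosed L] [CharZero L] {N ℓ : ℕ} [NeZero N]
  [NeZero ℓ]

/-- `(N_α (β f))(tˡ) = f(t^ℓ²) ∏_{i<ℓ} f(ζⁱ t)`, given the degree `ℓ + 1` of `α`. -/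
theorem qExpand_heckeNorm_of_degree (hℓ : ℓ.Prime) (hN : ¬ ℓ ∣ N)
    (hdeg : finrankAlong L (heckeAlphaBar L N ℓ) = ℓ + 1)
    {z : Lˣ} (hz : IsPrimitiveRoot z ℓ) (f : laurentBaseChange L (modularFunctionFieldFull N)) :
    qExpand L ℓ (heckeNorm L N ℓ f : LaurentSeries L) =
      qExpand L (ℓ * ℓ) (f : LaurentSeries L) *
        ∏ i ∈ Finset.range ℓ, twist (z ^ i) (f : LaurentSeries L) := by
  classical
  let := algebraAlong (heckeAlphaBar L N ℓ)
  have : Module.Finite (laurentBaseChange L (modularFunctionFieldFull N))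
      (laurentBaseChange L (modularFunctionFieldFull (N * ℓ))) :=
    finiteAlong_of_isFunctionField (heckeAlphaBar L N ℓ)
  let Ω := AlgebraicClosure (LaurentSeries L)
  let ι : LaurentSeries L →+* Ω := algebraMap (LaurentSeries L) Ω
  let : Algebra (laurentBaseChange L (modularFunctionFieldFull N)) Ω :=
    ((ι.comp (qExpand L ℓ)).comp
      (laurentBaseChange L (modularFunctionFieldFull N)).val.toRingHom).toAlgebra
  have hσ : ∀ (σ : laurentBaseChange L (modularFunctionFieldFull (N * ℓ))
      →ₐ[laurentBaseChange L (modularFunctionFieldFull N)] Ω) x,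
      σ (heckeAlphaBar L N ℓ x) = ι (qExpand L ℓ (x : LaurentSeries L)) := fun σ x => σ.commutes x
  choose P hP using fun σ : laurentBaseChange L (modularFunctionFieldFull (N * ℓ))
      →ₐ[laurentBaseChange L (modularFunctionFieldFull N)] Ω =>
    exists_conjSubst ι σ.toRingHom hℓ hN hz (hσ σ)
  have hinj : Function.Injective P := by
    intro σ τ h
    refine AlgHom.ext fun x => ?_
    refine hom_ext_gen (f := σ.toRingHom) (g := τ.toRingHom) (fun c => ?_) ?_ x
    · rw [← (heckeAlphaBar L N ℓ).commutes c]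
      exact (hσ σ _).trans (hσ τ _).symm
    · intro e he0 he
      obtain ⟨a, b, ha, hb, rfl⟩ := Nat.dvd_mul.mp he
      have : NeZero a := ⟨left_ne_zero_of_mul he0.out⟩
      rcases hℓ.eq_one_or_self_of_dvd b hb with rfl | rfl
      · have h' : gen L (N * ℓ) he = heckeAlphaBar L N ℓ (gen L N ha) := by
          refine Subtype.ext ?_
          show qExpand L (a * 1) (jqModC L) = qExpand L a (jqModC L)
          exact qExpand_congr (mul_one a) _
        rw [h']
        exact (hσ σ _).trans (hσ τ _).symm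
      · have h' : gen L (N * b) he = heckeBetaBar L N b (gen L N ha) := by
          refine Subtype.ext ?_
          show qExpand L (a * b) (jqModC L) = qExpand L b (qExpand L a (jqModC L))
          rw [qExpand_qExpand]
          exact qExpand_congr (mul_comm a b) _
        rw [h']
        exact (hP σ _).trans (h ▸ (hP τ _).symm)
  have hbij : Function.Bijective P := by
    rw [Fintype.bijective_iff_injective_and_card]
    refine ⟨hinj, ?_⟩
    rw [AlgHom.card, Fintype.card_option, Fintype.card_fin]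
    exact hdeg
  apply ι.injective
  have hnorm := Algebra.norm_eq_prod_embeddings (laurentBaseChange L (modularFunctionFieldFull N)) Ω
    (heckeBetaBar L N ℓ f)
  have hL : ι (qExpand L ℓ (heckeNorm L N ℓ f : LaurentSeries L)) =
      ∏ σ : laurentBaseChange L (modularFunctionFieldFull (N * ℓ))
        →ₐ[laurentBaseChange L (modularFunctionFieldFull N)] Ω, σ (heckeBetaBar L N ℓ f) := hnorm
  rw [hL, Fintype.prod_bijective P hbij (fun σ => σ (heckeBetaBar L N ℓ f))
      (fun p => ι (conjSubst z p (f : LaurentSeries L))) (fun σ => hP σ f), Fintype.prod_option,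
    map_mul, map_prod,
    ← Fin.prod_univ_eq_prod_range (fun i => ι (twist (z ^ i) (f : LaurentSeries L))) ℓ]
  congr 1
  · rw [conjSubst]
    exact congrArg ι (subst_one (ℓ * ℓ) _)
  · refine Finset.prod_congr rfl fun i _ => congrArg ι ?_
    show subst (z ^ (i : ℕ)) 1 (f : LaurentSeries L) = _
    rw [subst_apply, qExpand_one_apply]

end Identity

end Fermat.Agent.Hecke
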