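import Fermat.Agent.Hecke.NormIdentity
import Fermat.Agent.ModCurveGenus.Branches
import Fermat.Agent.Gamma0Cosets.Index

/-!
# The degree of `X₀(Nℓ) → X₀(N)` and the norm identity over `ℚ̄`

For a prime `ℓ ∤ N` the first degeneracy map has degree `ℓ + 1`, so the norm of the pullback along
the second one has the `q`-expansion `f(t^(ℓ²)) ∏_{i<ℓ} f(ζⁱ t)` in `t = q^(1/ℓ)`.
-/

set_option autoImplicit false

noncomputable section

open AlgebraicCurve ModularCurve IntermediateField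
open Fermat.Agent.ModularFunctionField (twist)

namespace Fermat.Agent.Hecke

local notation "ℚbar" => AlgebraicClosure ℚ

section Tower

variable {K F F' : Type*} [Field K] [Field F] [Field F'] [Algebra K F] [Algebra K F']
  [FunctionField.IsFunctionField K F] [FunctionField.IsFunctionField K F']

/-- `[F' : K(φ x)] = [F : K(x)] [F' : F]`. -/
theorem finrank_adjoin_map (φ : F →ₐ[K] F') (x : F) :
    Module.finrank K⟮φ x⟯ F' = Module.finrank K⟮x⟯ F * finrankAlong K φ := by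
  let := algebraAlong φ
  have := isScalarTower_along φ
  have : Module.Finite F F' := finiteAlong_of_isFunctionField φ
  show Module.finrank K⟮algebraMap F F' x⟯ F' = Module.finrank K⟮x⟯ F * Module.finrank F F'
  rw [Differentials.finrank_adjoin_algebraMap x, Module.finrank_mul_finrank]

end Tower

variable (N ℓ : ℕ) [NeZero N] [NeZero ℓ]

/-- `[ℚ̄(X₀(N)) : ℚ̄(j)] = ψ(N)`. -/
theorem finrank_jEl :
    Module.finrank ℚbar⟮ModCurveGenus.jEl N⟯ (ModCurveGenus.FN N) = dedekindPsi N := by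
  rw [ModCurveGenus.finrank_eq, ← Nat.card_eq_fintype_card]
  exact Gamma0Cosets.card_cosets N

/-- The first degeneracy map `X₀(Nℓ) → X₀(N)` has degree `ℓ + 1`. -/
theorem finrankAlong_alpha (hℓ : ℓ.Prime) (hN : ¬ ℓ ∣ N) :
    finrankAlong ℚbar (heckeAlphaBar ℚbar N ℓ) = ℓ + 1 := by
  have h := finrank_adjoin_map (heckeAlphaBar ℚbar N ℓ) (ModCurveGenus.jEl N)
  have hj : heckeAlphaBar ℚbar N ℓ (ModCurveGenus.jEl N) = ModCurveGenus.jEl (N * ℓ) :=
    Subtype.ext (coe_heckeAlphaBar N ℓ _)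
  rw [hj, finrank_jEl, finrank_jEl,
    Gamma0Cosets.dedekindPsi_mul ((hℓ.coprime_iff_not_dvd.mpr hN).symm)] at h
  have hψℓ : dedekindPsi ℓ = ℓ + 1 := by
    have := Gamma0Cosets.dedekindPsi_prime_pow hℓ one_pos
    simpa using this
  have hpos : 0 < dedekindPsi N := by
    rw [← Gamma0Cosets.card_cosets N]
    exact Nat.pos_of_ne_zero (Subgroup.index_ne_zero_of_finite (H := CongruenceSubgroup.Gamma0 N))
  rw [hψℓ] at h
  exact (Nat.eq_of_mul_eq_mul_left hpos h).symm

/-- The norm identity: in the parameter `t = q^(1/ℓ)`,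
`(N_α (β f))(tˡ) = f(t^ℓ²) ∏_{i<ℓ} f(ζⁱ t)`. -/
theorem qExpand_heckeNorm (hℓ : ℓ.Prime) (hN : ¬ ℓ ∣ N) {z : ℚbarˣ} (hz : IsPrimitiveRoot z ℓ)
    (f : modularFunctionFieldBar N) :
    qExpand ℚbar ℓ (heckeNorm ℚbar N ℓ f : LaurentSeries ℚbar) =
      qExpand ℚbar (ℓ * ℓ) (f : LaurentSeries ℚbar) *
        ∏ i ∈ Finset.range ℓ, twist (z ^ i) (f : LaurentSeries ℚbar) :=
  qExpand_heckeNorm_of_degree hℓ hN (finrankAlong_alpha N ℓ hℓ hN) hz f

end Fermat.Agent.Hecke
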