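import Fermat.Agent.Differentials.Fundamental
import Fermat.Agent.FunctionField.Approx
import Fermat.Agent.FunctionField.PlaceExists
import Fermat.Prelude.Def_AlgebraicCurve_DivisorPushPull
import Mathlib.RingTheory.Valuation.LocalSubring
import Mathlib.RingTheory.Norm.Basic
import Mathlib.FieldTheory.Minpoly.IsIntegrallyClosed

/-!
# The norm formula for the pushforward of principal divisors

For a finite extension `L/F` of function fields over an algebraically closed field of
characteristic zero, `ord_v (N f) = ∑_{w ∣ v} ord_w f`.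
-/

set_option autoImplicit false

noncomputable section

open AlgebraicCurve IntermediateField Polynomial

namespace Fermat.Agent.Hecke

open FFPlaces (exists_uniformizer mem_iff_ord_nonneg ord_div)

variable {K F L : Type*} [Field K] [Field F] [Field L] [Algebra K F] [Algebra K L] [Algebra F L]
  [IsScalarTower K F L] [FiniteDimensional F L]

/-- A function is integral over the ring of a place as soon as it is regular at all the places
above it. -/
theorem isIntegral_of_forall_ord_nonneg [FunctionField.IsFunctionField K L] (v : Place K F)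
    {f : L} (hf : ∀ w : Place K L, w.restrict F = v → 0 ≤ w.ord f) :
    IsIntegral v.toValuationSubring f := by
  let s : Set L := algebraMap F L '' (v.toValuationSubring : Set F)
  have hmem : f ∈ (integralClosure (Subring.closure s) L).toSubring := by
    rw [← iInf_valuationSubring_superset, Subring.mem_iInf]
    rintro ⟨A, hA⟩
    show f ∈ A
    by_cases htop : A = ⊤
    · exact htop ▸ ValuationSubring.mem_top f
    have hK : ∀ a : K, algebraMap K L a ∈ A := fun a => by
      rw [IsScalarTower.algebraMap_apply K F L]
      exact hA ⟨_, v.algebraMap_mem' a, rfl⟩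
    let w := FunctionField.placeOfValuationSubring A hK htop
    have hw : w.restrict F = v :=
      (FunctionField.eq_of_le (v := v) (w := w.restrict F) fun x hx => hA ⟨x, hx, rfl⟩).symm
    rcases eq_or_ne f 0 with rfl | hf0
    · exact zero_mem _
    exact (mem_iff_ord_nonneg w hf0).mpr (hf w hw)
  have hle : Subring.closure s ≤ (algebraMap v.toValuationSubring L).range := by
    rw [Subring.closure_le]
    rintro _ ⟨x, hx, rfl⟩
    exact ⟨⟨x, hx⟩, rfl⟩
  obtain ⟨p, hp, hpf⟩ := hmem
  have hl : p.map (algebraMap (Subring.closure s) L) ∈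
      Polynomial.lifts (algebraMap v.toValuationSubring L) := by
    rw [Polynomial.lifts_iff_coeff_lifts]
    intro n
    rw [Polynomial.coeff_map]
    exact hle (p.coeff n).2
  obtain ⟨q, hq, -, hqm⟩ := Polynomial.lifts_and_degree_eq_and_monic hl (hp.map _)
  refine ⟨q, hqm, ?_⟩
  rw [← Polynomial.eval_map, hq, Polynomial.eval_map]
  exact hpf

/-- Elements integral over the ring of a place are regular at the places above it. -/
theorem ord_nonneg_of_isIntegral {v : Place K F} {g : L} (hg : IsIntegral v.toValuationSubring g)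
    {w : Place K L} (hw : w.restrict F = v) : 0 ≤ w.ord g := by
  subst hw
  let incl : (w.restrict F).toValuationSubring →+* w.toValuationSubring :=
    Place.restrictInclusion F w
  obtain ⟨p, hp, hpg⟩ := hg
  have hint : IsIntegral w.toValuationSubring g :=
    ⟨p.map incl, hp.map _, by rw [eval₂_map]; exact hpg⟩
  obtain ⟨y, hy⟩ := IsIntegrallyClosed.isIntegral_iff.mp hint
  exact (FFPlaces.mem_iff w).mp (hy ▸ y.2)

/-- The norm of `x` is, up to sign, a power of the constant coefficient of its minimal
polynomial. -/
theorem norm_eq_coeff_zero_pow (x : L) :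
    Algebra.norm F x =
      ((-1) ^ (minpoly F x).natDegree * (minpoly F x).coeff 0) ^ Module.finrank F⟮x⟯ L := by
  have hx : IsIntegral F x := Algebra.IsIntegral.isIntegral x
  rw [Algebra.norm_eq_norm_adjoin F x]
  congr 1
  rw [← adjoin.powerBasis_gen hx, Algebra.PowerBasis.norm_gen_eq_coeff_zero_minpoly]
  rw [adjoin.powerBasis_gen, minpoly_gen, adjoin.powerBasis_dim]

/-- The norm of a function regular over `v` is regular at `v`, and vanishes at `v` if the function
vanishes somewhere above `v`. -/
theorem ord_norm_of_integral [FunctionField.IsFunctionField K L] (v : Place K F) {f : L}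
    (hf0 : f ≠ 0) (hf : ∀ w : Place K L, w.restrict F = v → 0 ≤ w.ord f) :
    0 ≤ v.ord (Algebra.norm F f) ∧
      (∀ w : Place K L, w.restrict F = v → 0 < w.ord f → 1 ≤ v.ord (Algebra.norm F f)) := by
  have hint := isIntegral_of_forall_ord_nonneg v hf
  have hmin : minpoly F f = (minpoly v.toValuationSubring f).map (algebraMap _ F) :=
    minpoly.isIntegrallyClosed_eq_field_fractions F L hint
  set q := minpoly v.toValuationSubring f with hq
  set p0 : F := (minpoly F f).coeff 0 with hp0
  have hp0q : p0 = (q.coeff 0 : F) := by rw [hp0, hmin, coeff_map]; rfl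
  have hp0ne : p0 ≠ 0 := minpoly.coeff_zero_ne_zero (Algebra.IsIntegral.isIntegral f) hf0
  have hp0nn : 0 ≤ v.ord p0 := (FFPlaces.mem_iff v).mp (hp0q ▸ (q.coeff 0).2)
  have hord : v.ord (Algebra.norm F f) = (Module.finrank F⟮f⟯ L : ℤ) * v.ord p0 := by
    rw [norm_eq_coeff_zero_pow, ← hp0, FFPlaces.ord_pow, v.ord_mul (by simp) hp0ne]
    congr 1
    have h1 : v.ord ((-1 : F) ^ (minpoly F f).natDegree) = 0 := by
      rw [FFPlaces.ord_pow, FFPlaces.ord_neg, v.ord_one, mul_zero]
    rw [h1, zero_add]
  refine ⟨hord ▸ mul_nonneg (Int.natCast_nonneg _) hp0nn, fun w hw hwf => ?_⟩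
  have hge : 1 ≤ v.ord p0 := by
    -- `p0 = - f * g` with `g` integral
    set g : L := aeval f q.divX with hg
    have hgi : IsIntegral v.toValuationSubring g := by
      rw [hg]
      exact IsIntegral.of_mem_of_fg _ hint.fg_adjoin_singleton _
        (aeval_mem_adjoin_singleton _ _)
    have hrel : f * g + algebraMap v.toValuationSubring L (q.coeff 0) = 0 := by
      have h := congrArg (aeval f) (X_mul_divX_add q)
      rwa [map_add, map_mul, aeval_X, aeval_C, hq, minpoly.aeval, ← hq] at h
    have hrel' : algebraMap F L p0 = -(f * g) := by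
      rw [hp0q, eq_neg_iff_add_eq_zero, add_comm]
      exact hrel
    have hg0 : g ≠ 0 := by
      intro h0
      rw [h0, mul_zero, neg_zero, map_eq_zero] at hrel'
      exact hp0ne hrel'
    have h := congrArg w.ord hrel'
    rw [w.ord_restrict, hw, FFPlaces.ord_neg, w.ord_mul hf0 hg0] at h
    have hgn := ord_nonneg_of_isIntegral hgi hw
    have he := w.ramificationIndex_pos (F := F)
    nlinarith
  have hk : 0 < Module.finrank F⟮f⟯ L := Module.finrank_pos
  rw [hord]
  nlinarith

variable [IsAlgClosed K] [CharZero K] [FunctionField.IsFunctionField K F]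
  [FunctionField.IsFunctionField K L] [HasPrincipalDivisors K L]

/-- Over an algebraically closed field all places have degree one. -/
theorem deg_eq_one_of_isFunctionField {E : Type*} [Field E] [Algebra K E]
    [FunctionField.IsFunctionField K E] (v : Place K E) : v.deg = 1 :=
  FFPlaces.deg_eq_one' (fun t ht => FunctionField.IsFunctionField.finiteDimensional_adjoin t ht) v

omit [HasPrincipalDivisors K L] in
/-- Over an algebraically closed field all inertia degrees are one. -/
theorem inertiaDeg_eq_one (w : Place K L) : w.inertiaDeg F = 1 := by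
  have h := w.deg_restrict_mul_inertiaDeg (F := F)
  rwa [deg_eq_one_of_isFunctionField w, deg_eq_one_of_isFunctionField (w.restrict F),
    one_mul] at h

/-- The fundamental identity in a finite extension of function fields. -/
theorem fundamentalIdentity : FundamentalIdentity K F L :=
  Differentials.fundamentalIdentity
    (fun t ht => FunctionField.IsFunctionField.finiteDimensional_adjoin t ht)
    (fun t ht => FunctionField.IsFunctionField.finiteDimensional_adjoin t ht)

theorem sum_ramificationIndex (v : Place K F) :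
    ∑ w ∈ v.fiber L, w.ramificationIndex F = Module.finrank F L := by
  have h := (fundamentalIdentity (L := L)).sum_ramificationIndex_mul_deg v
  simp only [deg_eq_one_of_isFunctionField, Nat.cast_one, mul_one] at h
  exact_mod_cast h

omit [IsAlgClosed K] [CharZero K] [FunctionField.IsFunctionField K F]
  [FunctionField.IsFunctionField K L] in
open scoped Classical in
/-- A function with order one at one place of a fibre and order zero at the others. -/
theorem exists_fiber_uniformizer (v : Place K F) (w₀ : Place K L) :
    ∃ π : L, π ≠ 0 ∧ ∀ w : Place K L, w.restrict F = v → w.ord π = if w = w₀ then 1 else 0 := by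
  classical
  obtain ⟨π₀, hπ₀, hπ₁⟩ := exists_uniformizer w₀
  let S : Finset (Place K L) := insert w₀ (v.fiber L)
  obtain ⟨z, hz⟩ := FunctionField.approximation S (fun w => if w = w₀ then π₀ else 1)
    (fun _ => -2)
  have hkey : ∀ w ∈ S, z ≠ 0 ∧ w.ord z = if w = w₀ then 1 else 0 := by
    intro w hw
    have h := hz w hw
    have ha : (if w = w₀ then π₀ else (1 : L)) ≠ 0 := by split_ifs <;> simp [hπ₀]
    have ho : w.ord (if w = w₀ then π₀ else (1 : L)) = if w = w₀ then 1 else 0 := by
      split_ifs with h'
      · rw [h']; exact hπ₁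
      · exact w.ord_one
    have hlt : w.adicValuation (z - (if w = w₀ then π₀ else 1))
        < w.adicValuation (if w = w₀ then π₀ else 1) := by
      refine lt_of_le_of_lt h ?_
      rw [w.adicValuation_eq_exp_neg_ord ha, ho, WithZero.exp_lt_exp]
      split_ifs <;> omega
    have heq : w.adicValuation z = w.adicValuation (if w = w₀ then π₀ else 1) := by
      have h2 := w.adicValuation.map_add_eq_of_lt_left hlt
      rwa [add_sub_cancel] at h2
    have hz0 : z ≠ 0 := by
      intro h0
      rw [h0, map_zero] at heq
      exact w.adicValuation_ne_zero ha heq.symm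
    refine ⟨hz0, ?_⟩
    rw [FunctionField.ord_eq_iff w hz0, heq, w.adicValuation_eq_exp_neg_ord ha, ho]
  refine ⟨z, (hkey w₀ (Finset.mem_insert_self _ _)).1, fun w hw => ?_⟩
  exact (hkey w (Finset.mem_insert_of_mem (Place.mem_fiber.mpr hw))).2

omit [IsAlgClosed K] [CharZero K] in
theorem ord_prod {E ι : Type*} [Field E] [Algebra K E] (v : Place K E) (s : Finset ι) (g : ι → E)
    (hg : ∀ i ∈ s, g i ≠ 0) : v.ord (∏ i ∈ s, g i) = ∑ i ∈ s, v.ord (g i) := by
  classical
  induction s using Finset.induction_on with
  | empty => simp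
  | @insert j t hj ih =>
    have ht : ∀ i ∈ t, g i ≠ 0 := fun i hi => hg i (Finset.mem_insert_of_mem hi)
    rw [Finset.prod_insert hj, v.ord_mul (hg j (Finset.mem_insert_self _ _))
      (Finset.prod_ne_zero_iff.mpr ht), ih ht, Finset.sum_insert hj]

/-- The norm as a homomorphism of monoids with zero. -/
def normHom : L →*₀ F where
  toFun := Algebra.norm F
  map_zero' := Algebra.norm_zero
  map_one' := map_one _
  map_mul' := map_mul _

/-- `ord_v (N f) = ∑_{w ∣ v} ord_w f`. -/
theorem ord_norm (v : Place K F) {f : L} (hf : f ≠ 0) :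
    v.ord (Algebra.norm F f) = ∑ w ∈ v.fiber L, w.ord f := by
  classical
  choose π hπ0 hπ using exists_fiber_uniformizer (L := L) v
  set Φ : L → ℤ := fun g => v.ord (Algebra.norm F g) with hΦ
  have hΦmul : ∀ g h : L, g ≠ 0 → h ≠ 0 → Φ (g * h) = Φ g + Φ h := fun g h hg hh => by
    simp only [hΦ, map_mul]
    exact v.ord_mul (Algebra.norm_ne_zero_iff.mpr hg) (Algebra.norm_ne_zero_iff.mpr hh)
  have hΦunit : ∀ g : L, g ≠ 0 → (∀ w ∈ v.fiber L, w.ord g = 0) → Φ g = 0 := by
    intro g hg hgo
    have h1 := (ord_norm_of_integral v hg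
      (fun w hw => (hgo w (Place.mem_fiber.mpr hw)).ge)).1
    have h2 := (ord_norm_of_integral v (inv_ne_zero hg)
      (fun w hw => by rw [w.ord_inv, hgo w (Place.mem_fiber.mpr hw), neg_zero])).1
    rw [show Algebra.norm F g⁻¹ = (Algebra.norm F g)⁻¹ from map_inv₀ normHom g, v.ord_inv] at h2
    simp only [hΦ]
    omega
  -- decomposition along the uniformisers
  have hdec : ∀ g : L, g ≠ 0 → Φ g = ∑ w ∈ v.fiber L, w.ord g * Φ (π w) := by
    intro g hg
    set P : L := ∏ w ∈ v.fiber L, π w ^ (w.ord g) with hP
    have hP0 : P ≠ 0 := Finset.prod_ne_zero_iff.mpr fun w _ => zpow_ne_zero _ (hπ0 w)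
    have hPo : ∀ u ∈ v.fiber L, u.ord P = u.ord g := by
      intro u hu
      rw [hP, ord_prod u _ _ (fun w _ => zpow_ne_zero _ (hπ0 w))]
      simp only [Place.ord_zpow, hπ _ u (Place.mem_fiber.mp hu)]
      simp [hu]
    have hu : Φ (g / P) = 0 := hΦunit _ (div_ne_zero hg hP0) fun u hu => by
      rw [ord_div u hg hP0, hPo u hu, sub_self]
    have hgP : Φ g = Φ (g / P) + Φ P := by
      rw [← hΦmul _ _ (div_ne_zero hg hP0) hP0, div_mul_cancel₀ g hP0]
    have hnP : Algebra.norm F P = ∏ w ∈ v.fiber L, Algebra.norm F (π w) ^ (w.ord g) := by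
      rw [hP, map_prod]
      exact Finset.prod_congr rfl fun w _ => map_zpow₀ (normHom (F := F) (L := L)) _ _
    rw [hgP, hu, zero_add]
    simp only [hΦ, hnP]
    rw [ord_prod v _ _ (fun w _ => zpow_ne_zero _ (Algebra.norm_ne_zero_iff.mpr (hπ0 w)))]
    simp [Place.ord_zpow]
  -- each uniformiser has norm of order one
  have hone : ∀ w ∈ v.fiber L, Φ (π w) = 1 := by
    have hge : ∀ w ∈ v.fiber L, 1 ≤ Φ (π w) := fun w hw =>
      (ord_norm_of_integral v (hπ0 w)
        (fun u hu => by rw [hπ w u hu]; split_ifs <;> omega)).2 w (Place.mem_fiber.mp hw)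
        (by rw [hπ w w (Place.mem_fiber.mp hw), if_pos rfl]; exact one_pos)
    obtain ⟨t, ht0, ht⟩ := exists_uniformizer v
    have htL : algebraMap F L t ≠ 0 := (_root_.map_ne_zero _).mpr ht0
    have h1 : Φ (algebraMap F L t) = (Module.finrank F L : ℤ) := by
      simp only [hΦ, Algebra.norm_algebraMap, FFPlaces.ord_pow, ht, mul_one]
    rw [hdec _ htL, ← sum_ramificationIndex (L := L) v, Nat.cast_sum] at h1
    have h2 : ∀ w ∈ v.fiber L, w.ord (algebraMap F L t) * Φ (π w)
        = (w.ramificationIndex F : ℤ) * Φ (π w) := fun w hw => by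
      rw [w.ord_restrict, Place.mem_fiber.mp hw, ht, mul_one]
    rw [Finset.sum_congr rfl h2] at h1
    have hle : ∀ w ∈ v.fiber L,
        (w.ramificationIndex F : ℤ) ≤ (w.ramificationIndex F : ℤ) * Φ (π w) := fun w hw =>
      le_mul_of_one_le_right (Int.natCast_nonneg _) (hge w hw)
    intro w hw
    have h3 := (Finset.sum_eq_sum_iff_of_le hle).mp h1.symm w hw
    have he : (0 : ℤ) < w.ramificationIndex F := by exact_mod_cast w.ramificationIndex_pos
    exact (mul_left_cancel₀ he.ne' ((mul_one _).trans h3)).symm
  have := hdec f hf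
  simp only [hΦ] at this hone
  rw [this]
  exact Finset.sum_congr rfl fun w hw => by rw [hone w hw, mul_one]

/-- The pushforward of a principal divisor is the divisor of the norm. -/
theorem pushforwardNormFormula : Divisor.PushforwardNormFormula K F L := by
  classical
  intro f hf D hD v
  rw [Divisor.pushforward_apply, ord_norm v hf]
  simp only [inertiaDeg_eq_one, Nat.cast_one, mul_one, ← Finset.sum_filter, hD]
  refine Finset.sum_subset (fun w hw => ?_) (fun w hw hw' => ?_)
  · exact Place.mem_fiber.mpr (Finset.mem_filter.mp hw).2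
  · by_contra hne
    exact hw' (Finset.mem_filter.mpr ⟨Finsupp.mem_support_iff.mpr (by rwa [hD]),
      Place.mem_fiber.mp hw⟩)

end Fermat.Agent.Hecke
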